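import Fermat.Agent.MU.F4.Loc.Smooth.Level
import Fermat.Agent.MU.F4.Loc.FT

section MergeWrap_F4_Loc_Smooth_H90 -- from F4/Loc/Smooth/H90.lean

/-!
# F4 / Loc / Smooth / H90 : Hilbert 90 for a local formation (seat S-H90, helper90)

`F : LocFormation q 𝓛 C`.  Every `𝓛`-smooth 1-cocycle of `C` is a coboundary:

a smooth cocycle `c` is `V`-inflated for a level `V` (S-LVL); `toMul1 c` is a multiplicative
1-cocycle of `Γ₀` which is right-`V`-invariant, hence `= γ • b / b` for some `b ∈ Ωˣ` (FTA);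
`c v = 0` for `v ∈ V`, so `b` is `V`-fixed and lies in the image of `j` (`j_range`).
-/

set_option autoImplicit false
set_option linter.unusedSectionVars false
set_option linter.style.haveILetI false

open CategoryTheory groupCohomology

namespace Fermat.Agent.F4.Loc

section Generic

variable {q : ℕ} [Fact q.Prime]
variable {Γ : Type} [Group Γ] [MulSemiringAction Γ (PadicAlgCl q)]
  [MulDistribMulAction Γ (PadicAlgCl q)ˣ]

/-- Hilbert 90 on the whole group: a multiplicative 1-cocycle `t : Γ → Ωˣ` which is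
right-invariant under an open normal subgroup `V` is `γ ↦ γ • b / b` with `b` fixed by `V`. -/
theorem h90_exists_fixed (hΓ : IsLocalGal q Γ) {V : Subgroup Γ} [V.Normal] (hV : IsOpenSub q V)
    {t : Γ → (PadicAlgCl q)ˣ} (ht : IsMulCocycle₁ t) (htV : IsConst1 V t) :
    ∃ b : (PadicAlgCl q)ˣ, IsFixedBy V b ∧ ∀ γ : Γ, γ • b / b = t γ := by
  have hH := h1Triv_of_open hΓ ⊤ V hV le_top
  obtain ⟨b, hb⟩ := hH (fun h => t (h : Γ)) (fun g h => ht (g : Γ) (h : Γ))
    (fun h v hv => htV (h : Γ) (v : Γ) hv)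
  have hb' : ∀ γ : Γ, γ • b / b = t γ := fun γ => hb ⟨γ, Subgroup.mem_top γ⟩
  have ht1 : t 1 = 1 := by
    have := ht 1 1
    rw [mul_one, one_smul] at this
    exact (mul_eq_left.1 this.symm)
  refine ⟨b, fun v hv => ?_, hb'⟩
  have h1 : t v = 1 := by
    have := htV 1 v hv
    rw [one_mul] at this
    rw [this, ht1]
  have h2 := hb' v
  rw [h1, div_eq_one] at h2
  exact h2

end Generic

namespace LocFormation

variable {q : ℕ} [Fact q.Prime] {Γ₀ : Type} [Group Γ₀]
  [MulSemiringAction Γ₀ (PadicAlgCl q)] [MulDistribMulAction Γ₀ (PadicAlgCl q)ˣ]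
  {𝓛 : Levels Γ₀} {C : Rep.{0} ℤ Γ₀}

/-- **S-H90.**  Hilbert 90 for a local formation: every `𝓛`-smooth 1-cocycle of `C` is a
coboundary. -/
theorem h90sm (F : LocFormation q 𝓛 C) : UC.H90sm 𝓛 C := by
  intro c hc
  have hcoc : c ∈ cocycles₁ C := hc.1
  have hlc : IsLC₁ 𝓛 c := hc.2
  obtain ⟨V, hV, hinfl⟩ := F.exists_level_isInfl1 hlc
  have hVn : V.Normal := 𝓛.normal V hV
  obtain ⟨b, hbfix, hb⟩ := h90_exists_fixed F.isLocalGal (F.isOpenSub V hV)
    (F.isMulCocycle₁_toMul1 hcoc) hinfl.1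
  exact F.mem_B1_of_toMul1_eq ⟨V, hV, hbfix⟩ fun g => (hb g).symm

end LocFormation

end Fermat.Agent.F4.Loc
end MergeWrap_F4_Loc_Smooth_H90
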